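import Mathlib
import Fermat.Agent.LT.H556.A0
import Fermat.Agent.LT.T2.H131.WeakApprox

/-!
# Row LT, tower T7, leaf T7.14.3h.C `ClassicalC` (hedge of helper528): local tools (helper439)

OFF-MAIN.  Sorry-free.  The closure `𝔪 𝒪_v` of an ideal in `K_v`:

* it is stable under addition, negation and multiplication by the integers of `K_v`;
* it lies in the maximal ideal if `v ∣ 𝔪`, and a bound for the valuation on `𝔪` passes to it;
* simultaneous approximation of integers of `K_v`, `v ∈ S`, by an element of `𝒪` modulo `𝔪 𝒪_v`.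

Assets: `LT/T2/H131/WeakApprox.lean` (helper131, byte-identical copy).
-/

set_option autoImplicit false

open IsDedekindDomain NumberField
open Fermat.Agent.LT.H556.A0
open Fermat.Agent.LT.T2.H131

noncomputable section

namespace Fermat.Agent.LT.T7.H439

variable {K : Type} [Field K] [NumberField K]

/-- The embedding `𝒪 → K_v`. -/
def embO439 (v : HeightOneSpectrum (𝓞 K)) (a : 𝓞 K) : v.adicCompletion K :=
  algebraMap K (v.adicCompletion K) (algebraMap (𝓞 K) K a)

theorem embO_add439 (v : HeightOneSpectrum (𝓞 K)) (a b : 𝓞 K) :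
    embO439 v (a + b) = embO439 v a + embO439 v b := by
  simp only [embO439, map_add]

theorem embO_mul439 (v : HeightOneSpectrum (𝓞 K)) (a b : 𝓞 K) :
    embO439 v (a * b) = embO439 v a * embO439 v b := by
  simp only [embO439, map_mul]

theorem embO_sub439 (v : HeightOneSpectrum (𝓞 K)) (a b : 𝓞 K) :
    embO439 v (a - b) = embO439 v a - embO439 v b := by
  simp only [embO439, map_sub]

theorem embO_one439 (v : HeightOneSpectrum (𝓞 K)) : embO439 v (1 : 𝓞 K) = 1 := by
  simp only [embO439, map_one]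

theorem embO_neg439 (v : HeightOneSpectrum (𝓞 K)) (a : 𝓞 K) :
    embO439 v (-a) = -embO439 v a := by
  simp only [embO439, map_neg]

theorem valued_embO439 (v : HeightOneSpectrum (𝓞 K)) (a : 𝓞 K) :
    Valued.v (embO439 v a) = v.intValuation a := by
  rw [embO439, valued_algebraMap_h131, HeightOneSpectrum.valuation_of_algebraMap]

theorem valued_embO_le_one439 (v : HeightOneSpectrum (𝓞 K)) (a : 𝓞 K) :
    Valued.v (embO439 v a) ≤ 1 := by
  rw [valued_embO439]
  exact v.intValuation_le_one a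

theorem valued_embO_lt_one_iff439 (v : HeightOneSpectrum (𝓞 K)) (a : 𝓞 K) :
    Valued.v (embO439 v a) < 1 ↔ a ∈ v.asIdeal := by
  rw [valued_embO439]
  exact v.intValuation_lt_one_iff_mem a

theorem idealClosure_eq439 (𝔪 : Ideal (𝓞 K)) (v : HeightOneSpectrum (𝓞 K)) :
    idealClosure 𝔪 v = closure (embO439 v '' (𝔪 : Set (𝓞 K))) := rfl

theorem embO_mem_ic439 {𝔪 : Ideal (𝓞 K)} (v : HeightOneSpectrum (𝓞 K)) {a : 𝓞 K} (ha : a ∈ 𝔪) :
    embO439 v a ∈ idealClosure 𝔪 v :=
  subset_closure ⟨a, ha, rfl⟩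

/-! ## Algebra of the closure -/

theorem ic_add439 (𝔪 : Ideal (𝓞 K)) (v : HeightOneSpectrum (𝓞 K)) {x y : v.adicCompletion K}
    (hx : x ∈ idealClosure 𝔪 v) (hy : y ∈ idealClosure 𝔪 v) : x + y ∈ idealClosure 𝔪 v := by
  rw [idealClosure_eq439] at *
  refine map_mem_closure₂ (f := fun a b : v.adicCompletion K => a + b) continuous_add hx hy ?_
  rintro _ ⟨a, ha, rfl⟩ _ ⟨b, hb, rfl⟩
  exact ⟨a + b, 𝔪.add_mem ha hb, embO_add439 v a b⟩

/-- The integers of `K_v` are in the closure of `𝒪`. -/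
theorem int_mem_closure439 (v : HeightOneSpectrum (𝓞 K)) {y : v.adicCompletion K}
    (hy : Valued.v y ≤ 1) : y ∈ closure (embO439 v '' (Set.univ : Set (𝓞 K))) := by
  rw [mem_closure_iff_nhds]
  intro t ht
  obtain ⟨c, hc, hct⟩ := exists_ball_subset_h131 y ht
  have hvc : Valued.v c ≠ 0 := by simpa using hc
  obtain ⟨n, hn⟩ := exists_exp_neg_lt_h131 hvc
  obtain ⟨b, hb⟩ := exists_int_approx_h131 v y hy n
  exact ⟨embO439 v b, hct (lt_of_le_of_lt hb hn), ⟨b, Set.mem_univ _, rfl⟩⟩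

theorem ic_mul_int439 (𝔪 : Ideal (𝓞 K)) (v : HeightOneSpectrum (𝓞 K)) {y x : v.adicCompletion K}
    (hy : Valued.v y ≤ 1) (hx : x ∈ idealClosure 𝔪 v) : y * x ∈ idealClosure 𝔪 v := by
  rw [idealClosure_eq439] at *
  refine map_mem_closure₂ (f := fun a b : v.adicCompletion K => a * b) continuous_mul
    (int_mem_closure439 v hy) hx ?_
  rintro _ ⟨a, -, rfl⟩ _ ⟨b, hb, rfl⟩
  exact ⟨a * b, 𝔪.mul_mem_left a hb, embO_mul439 v a b⟩

theorem ic_neg439 (𝔪 : Ideal (𝓞 K)) (v : HeightOneSpectrum (𝓞 K)) {x : v.adicCompletion K}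
    (hx : x ∈ idealClosure 𝔪 v) : -x ∈ idealClosure 𝔪 v := by
  have h := ic_mul_int439 𝔪 v (y := -1) (by rw [Valuation.map_neg, map_one]) hx
  rwa [neg_one_mul] at h

theorem ic_sub439 (𝔪 : Ideal (𝓞 K)) (v : HeightOneSpectrum (𝓞 K)) {x y : v.adicCompletion K}
    (hx : x ∈ idealClosure 𝔪 v) (hy : y ∈ idealClosure 𝔪 v) : x - y ∈ idealClosure 𝔪 v := by
  rw [sub_eq_add_neg]
  exact ic_add439 𝔪 v hx (ic_neg439 𝔪 v hy)

/-- Division by a unit of `𝒪_v`. -/
theorem ic_of_unit_mul439 (𝔪 : Ideal (𝓞 K)) (v : HeightOneSpectrum (𝓞 K))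
    {u x : v.adicCompletion K} (hu : Valued.v u = 1) (hx : u * x ∈ idealClosure 𝔪 v) :
    x ∈ idealClosure 𝔪 v := by
  have hu0 : u ≠ 0 := by
    intro h
    rw [h, map_zero] at hu
    exact zero_ne_one hu
  have h := ic_mul_int439 𝔪 v (y := u⁻¹) (by rw [map_inv₀, hu, inv_one]) hx
  rwa [inv_mul_cancel_left₀ hu0] at h

/-! ## Valuations on the closure -/

/-- A bound for the valuation on a set passes to its closure. -/
theorem val_le_of_mem_closure439 {F : Type} [Field F] [Valued F (WithZero (Multiplicative ℤ))]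
    {S : Set F} {γ : WithZero (Multiplicative ℤ)} (h : ∀ s ∈ S, Valued.v s ≤ γ) {x : F}
    (hx : x ∈ closure S) : Valued.v x ≤ γ := by
  by_cases h0 : x = 0
  · rw [h0, map_zero]
    exact zero_le
  · obtain ⟨s, hs1, hs2⟩ := mem_closure_iff_nhds.1 hx _ (ball_mem_nhds_h131 x x h0)
    have hs1' : Valued.v (s - x) < Valued.v x := hs1
    have e : Valued.v s = Valued.v x := by
      have e' : s = x + (s - x) := by ring
      rw [e']
      exact Valuation.map_add_eq_of_lt_left _ hs1'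
    rw [← e]
    exact h s hs2

theorem ic_val_le439 (𝔪 : Ideal (𝓞 K)) (v : HeightOneSpectrum (𝓞 K))
    {γ : WithZero (Multiplicative ℤ)} (h : ∀ m ∈ 𝔪, v.intValuation m ≤ γ)
    {x : v.adicCompletion K} (hx : x ∈ idealClosure 𝔪 v) : Valued.v x ≤ γ := by
  rw [idealClosure_eq439] at hx
  refine val_le_of_mem_closure439 ?_ hx
  rintro _ ⟨m, hm, rfl⟩
  rw [valued_embO439]
  exact h m hm

/-- The closure of `𝔪` lies in the maximal ideal if `v ∣ 𝔪`. -/
theorem ic_lt_one439 {𝔪 : Ideal (𝓞 K)} {v : HeightOneSpectrum (𝓞 K)} (hv : v.asIdeal ∣ 𝔪)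
    {x : v.adicCompletion K} (hx : x ∈ idealClosure 𝔪 v) : Valued.v x < 1 := by
  have h1 : Valued.v x ≤ WithZero.exp (-(1 : ℤ)) := by
    refine ic_val_le439 𝔪 v (fun m hm => ?_) hx
    have hm' : m ∈ v.asIdeal ^ 1 := by
      rw [pow_one]
      exact Ideal.le_of_dvd hv hm
    have := (v.intValuation_le_pow_iff_mem m 1).2 hm'
    simpa using this
  refine lt_of_le_of_lt h1 ?_
  rw [← WithZero.exp_zero, WithZero.exp_lt_exp]
  norm_num

/-! ## Simultaneous approximation -/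

/-- Simultaneous approximation of integers of `K_v`, `v ∈ S`, by an element of `𝒪`, modulo the
closures of `𝔪`. -/
theorem exists_approx439 {𝔪 : Ideal (𝓞 K)} (h𝔪 : 𝔪 ≠ ⊥) (S : Finset (HeightOneSpectrum (𝓞 K)))
    (x : (v : HeightOneSpectrum (𝓞 K)) → v.adicCompletion K)
    (hx : ∀ v ∈ S, Valued.v (x v) ≤ 1) :
    ∃ a : 𝓞 K, ∀ v ∈ S, embO439 v a - x v ∈ idealClosure 𝔪 v := by
  classical
  choose N hN using fun v : HeightOneSpectrum (𝓞 K) => exists_ball_subset_idealClosure_h131 𝔪 h𝔪 v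
  have hloc : ∀ v : HeightOneSpectrum (𝓞 K), ∃ b : 𝓞 K, v ∈ S →
      Valued.v (embO439 v b - x v) ≤ WithZero.exp (-(N v : ℤ)) := by
    intro v
    by_cases hv : v ∈ S
    · obtain ⟨b, hb⟩ := exists_int_approx_h131 v (x v) (hx v hv) (N v)
      exact ⟨b, fun _ => hb⟩
    · exact ⟨0, fun h => absurd h hv⟩
  choose b hb using hloc
  obtain ⟨r, hr⟩ := IsDedekindDomain.exists_forall_sub_mem_ideal
    (s := S) (fun v : HeightOneSpectrum (𝓞 K) => v.asIdeal) (fun v => N v)
    (fun v _ => v.prime) (fun v _ w _ hvw h => hvw (HeightOneSpectrum.ext h))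
    (fun v : S => b v)
  refine ⟨r, fun v hv => hN v _ ?_⟩
  have e : embO439 v r - x v = embO439 v (r - b v) + (embO439 v (b v) - x v) := by
    rw [embO_sub439]
    ring
  rw [e]
  refine (Valuation.map_add _ _ _).trans (max_le ?_ (hb v hv))
  rw [valued_embO439]
  exact (v.intValuation_le_pow_iff_mem _ _).2 (hr v hv)

end Fermat.Agent.LT.T7.H439

end
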