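import Mathlib
import Fermat.Agent.LT.T7.H534.DownBasisSpec
import Fermat.Agent.LT.T7.H340.IwKit
import Fermat.Agent.LT.T7.H863.WSub
import Fermat.Agent.LT.T7.H439.ClLocal

/-!
# Row LT, tower T7, leaf T7.L2.3.5.3 `SD534.OpsClassC` (helper439, OFF-MAIN, spare of row 2181)

VERBATIM vs `T7/H534/DownBasisSpec.lean` (helper534@b2ea72787), unconditional.

`Z^k = shiftOp z k` and `𝒰 = iwOp u H` at a place `u ∣ 𝔫` map a member of `W` with eigen-data `c`
to a member of `W` with eigen-data `c`, and commute.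

* `IsPre439` = every condition of `IsEigFn` except the invariance under `U(𝔫)` and under the
  Iwahori subgroup: stable under the right translations by the elements SUPPORTED AT `u`
  (`IsPre439.translate`: such an element commutes with the ray generator, the compact groups and
  the positive scalars at infinity, the Hecke coset systems and the scalar uniformisers at
  `v ∤ 𝔫`, the spheres at infinity), under sums and scalar multiples (assets of helper863,
  helper886).
* the invariance under `U(𝔫)` of `𝒰 ψ`: `k = k_u k'`, `k_u` in the Iwahori subgroup (`u ∣ 𝔫`,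
  `ic_lt_one439`), `k'` in `U(𝔫)` trivial at `u`; left multiplication by `k_u` permutes the coset
  system modulo `I` (kit of helper340: `iwSum_indep340`, `isIwCosetSystem_translate340`);
* `z` is central.
-/

set_option autoImplicit false
set_option linter.unusedSectionVars false

open AutomorphicForm IsDedekindDomain NumberField MeasureTheory
open scoped ComplexConjugate
open Fermat.Agent.LT.H556 Fermat.Agent.LT.H556.A0 Fermat.Agent.LT.H129

noncomputable section

namespace Fermat.Agent.LT.T7.H439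

open Fermat.Agent.LT Fermat.Agent.LT.T7 Fermat.Agent.LT.T7.SD534 Fermat.Agent.LT.T7.H340

variable {K : Type} [Field K] [NumberField K]

/-- Every condition of `IsEigFn` except the invariance under `U(𝔫)` and under the Iwahori
subgroups. -/
structure IsPre439 (𝔫 : Ideal (𝓞 K)) (r : G K) (c : EigData K) (ψ : G K → ℂ) : Prop where
  cont : Continuous ψ
  bdd : ∃ C : ℝ, ∀ g : G K, ‖ψ g‖ ≤ C
  left_inv : ∀ (γ : GL (Fin 2) K) (g : G K), ψ (T5.ratG γ * g) = ψ g
  arch_compact : ∀ (w : InfinitePlace K) (k : G K), IsArchCompact w k →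
    ∀ g : G K, ψ (g * k) = ψ g
  ray : ∀ g : G K, ψ (g * r) = ψ g
  cuspidal : IsCuspidalFn ψ
  arch_scalar : ∀ (w : InfinitePlace K) (z : G K), IsArchPosScalar w z →
    ∀ g : G K, ψ (g * z) = ψ g
  hecke : ∀ v : HeightOneSpectrum (𝓞 K), ¬ v.asIdeal ∣ 𝔫 → IsHeckeEigenAt ψ v (c.a v) (c.b v)
  mean : ∀ w : InfinitePlace K, MeanEig ψ w (c.m w)

theorem isPre_of_eig439 {𝔫 : Ideal (𝓞 K)} {r : G K} {l : ℕ}
    {o : ℕ → HeightOneSpectrum (𝓞 K)} {ψ : G K → ℂ} {c : EigData K}
    (h : IsEigFn 𝔫 r l o ψ c) : IsPre439 𝔫 r c ψ where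
  cont := h.inv.cusp.cont
  bdd := h.inv.cusp.bdd
  left_inv := h.inv.cusp.aut.left_inv
  arch_compact := fun w k hk g => by
    have := h.inv.cusp.aut.arch_compact w k hk g
    simpa [T5.trivType] using this
  ray := h.inv.cusp.aut.ray
  cuspidal := h.inv.cusp.cuspidal
  arch_scalar := h.inv.arch_scalar
  hecke := h.hecke
  mean := h.mean

theorem isEig_of_pre439 {𝔫 : Ideal (𝓞 K)} {r : G K} {l : ℕ}
    {o : ℕ → HeightOneSpectrum (𝓞 K)} {ψ : G K → ℂ} {c : EigData K}
    (h : IsPre439 𝔫 r c ψ)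
    (hl : ∀ u : G K, InLevelGroup 𝔫 u → ∀ g : G K, ψ (g * u) = ψ g)
    (hi : IsIwInv l o ψ) : IsEigFn 𝔫 r l o ψ c where
  inv :=
    { cusp :=
        { cont := h.cont
          bdd := h.bdd
          aut :=
            { left_inv := h.left_inv
              level_inv := hl
              arch_compact := fun w k hk g => by
                rw [h.arch_compact w k hk g]
                simp [T5.trivType]
              ray := h.ray }
          cuspidal := h.cuspidal }
      arch_scalar := h.arch_scalar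
      iw := hi }
  hecke := h.hecke
  mean := h.mean

/-! ## Linearity -/

theorem isPre_zero439 (𝔫 : Ideal (𝓞 K)) (r : G K) (c : EigData K) :
    IsPre439 𝔫 r c (0 : G K → ℂ) where
  cont := continuous_const
  bdd := ⟨0, fun g => by simp⟩
  left_inv := fun _ _ => rfl
  arch_compact := fun _ _ _ _ => rfl
  ray := fun _ => rfl
  cuspidal := T2.H886.isCuspidalFn_zero886
  arch_scalar := fun _ _ _ _ => rfl
  hecke := fun v _ => by
    refine ⟨fun H _ g => ?_, fun z _ g => ?_⟩
    · simp
    · simp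
  mean := fun w => by
    intro d _ Y _ g
    simp

theorem isPre_add439 {𝔫 : Ideal (𝓞 K)} {r : G K} {c : EigData K} {ψ ψ' : G K → ℂ}
    (h : IsPre439 𝔫 r c ψ) (h' : IsPre439 𝔫 r c ψ') : IsPre439 𝔫 r c (ψ + ψ') where
  cont := h.cont.add h'.cont
  bdd := by
    obtain ⟨C, hC⟩ := h.bdd
    obtain ⟨C', hC'⟩ := h'.bdd
    exact ⟨C + C', fun g => (norm_add_le _ _).trans (add_le_add (hC g) (hC' g))⟩
  left_inv := fun γ g => by simp only [Pi.add_apply, h.left_inv γ g, h'.left_inv γ g]
  arch_compact := fun w k hk g => by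
    simp only [Pi.add_apply, h.arch_compact w k hk g, h'.arch_compact w k hk g]
  ray := fun g => by simp only [Pi.add_apply, h.ray g, h'.ray g]
  cuspidal := by
    obtain ⟨C, hC⟩ := h.bdd
    obtain ⟨C', hC'⟩ := h'.bdd
    exact T2.H886.isCuspidalFn_add886 h.cont hC h'.cont hC' h.cuspidal h'.cuspidal
  arch_scalar := fun w z hz g => by
    simp only [Pi.add_apply, h.arch_scalar w z hz g, h'.arch_scalar w z hz g]
  hecke := fun v hv => H863.isHeckeEigenAt_add_863 (h.hecke v hv) (h'.hecke v hv)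
  mean := fun w => H863.meanEig_add_863 h.cont h'.cont (h.mean w) (h'.mean w)

theorem isPre_smul439 {𝔫 : Ideal (𝓞 K)} {r : G K} {c : EigData K} {ψ : G K → ℂ} (a : ℂ)
    (h : IsPre439 𝔫 r c ψ) : IsPre439 𝔫 r c (a • ψ) where
  cont := h.cont.const_smul a
  bdd := by
    obtain ⟨C, hC⟩ := h.bdd
    refine ⟨‖a‖ * C, fun g => ?_⟩
    rw [Pi.smul_apply, norm_smul]
    exact mul_le_mul_of_nonneg_left (hC g) (norm_nonneg a)
  left_inv := fun γ g => by simp only [Pi.smul_apply, h.left_inv γ g]
  arch_compact := fun w k hk g => by simp only [Pi.smul_apply, h.arch_compact w k hk g]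
  ray := fun g => by simp only [Pi.smul_apply, h.ray g]
  cuspidal := T2.H886.isCuspidalFn_const_mul886 a h.cuspidal
  arch_scalar := fun w z hz g => by simp only [Pi.smul_apply, h.arch_scalar w z hz g]
  hecke := fun v hv => H863.isHeckeEigenAt_smul_863 a (h.hecke v hv)
  mean := fun w => H863.meanEig_smul_863 a (h.mean w)

theorem isPre_sum439 {𝔫 : Ideal (𝓞 K)} {r : G K} {c : EigData K} {ι : Type} (s : Finset ι)
    (f : ι → G K → ℂ) (h : ∀ i ∈ s, IsPre439 𝔫 r c (f i)) :
    IsPre439 𝔫 r c (∑ i ∈ s, f i) := by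
  classical
  induction s using Finset.induction_on with
  | empty =>
    rw [Finset.sum_empty]
    exact isPre_zero439 𝔫 r c
  | insert a s ha ih =>
    rw [Finset.sum_insert ha]
    exact isPre_add439 (h a (Finset.mem_insert_self a s))
      (ih fun i hi => h i (Finset.mem_insert_of_mem hi))

/-! ## Right translation by an element supported at `u ∣ 𝔫` -/

theorem mul_comm_of_local439 {u : HeightOneSpectrum (𝓞 K)} {b k : G K}
    (hb : IsLocalAtFin u b) (hk : TrivAtFin u k) (x : G K) : x * k * b = x * b * k := by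
  have h := commute_of_local340 hb ((trivAtFin_iff129 u k).1 hk)
  rw [mul_assoc, ← h, ← mul_assoc]

theorem isPre_translate439 {𝔫 : Ideal (𝓞 K)} {r : G K} {c : EigData K} {ψ : G K → ℂ}
    (h : IsPre439 𝔫 r c ψ) (hr : T5.IsRayGen r) {u : HeightOneSpectrum (𝓞 K)}
    (hu : u.asIdeal ∣ 𝔫) {b : G K} (hb : IsLocalAtFin u b) :
    IsPre439 𝔫 r c (fun x => ψ (x * b)) where
  cont := h.cont.comp (continuous_id.mul continuous_const)
  bdd := by
    obtain ⟨C, hC⟩ := h.bdd
    exact ⟨C, fun g => hC _⟩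
  left_inv := fun γ g => by
    rw [mul_assoc]
    exact h.left_inv γ (g * b)
  arch_compact := fun w k hk g => by
    show ψ (g * k * b) = ψ (g * b)
    rw [mul_comm_of_local439 hb (hk.1.2 u)]
    exact h.arch_compact w k hk (g * b)
  ray := fun g => by
    show ψ (g * r * b) = ψ (g * b)
    rw [mul_comm_of_local439 hb (hr.1 u)]
    exact h.ray (g * b)
  cuspidal := T2.H886.isCuspidalFn_shift886 b h.cuspidal
  arch_scalar := fun w z hz g => by
    show ψ (g * z * b) = ψ (g * b)
    rw [mul_comm_of_local439 hb (hz.1.2 u)]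
    exact h.arch_scalar w z hz (g * b)
  hecke := fun v hv => by
    have hne : u ≠ v := by
      rintro rfl
      exact hv hu
    refine ⟨fun H hH g => ?_, fun z hz g => ?_⟩
    · have e : ∀ x ∈ H, ψ (g * x * b) = ψ (g * b * x) := fun x hx =>
        by rw [mul_comm_of_local439 hb ((hH.2.1 x hx).1.2 u hne)]
      show ∑ x ∈ H, ψ (g * x * b) = _
      rw [Finset.sum_congr rfl e]
      exact (h.hecke v hv).1 H hH (g * b)
    · show ψ (g * z * b) = _
      rw [mul_comm_of_local439 hb (hz.1.2 u hne)]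
      exact (h.hecke v hv).2 z hz (g * b)
  mean := fun w => by
    intro d hd Y hY g
    have e : ∀ α β : ℝ, ψ (g * Y α β * b) = ψ (g * b * Y α β) := fun α β => by
      rw [mul_comm_of_local439 hb ((hY α β).1.2 u)]
    simp only [e]
    exact h.mean w d hd Y hY (g * b)

/-! ## The Iwahori operator -/

theorem iwOp_eq_sum439 (u : HeightOneSpectrum (𝓞 K)) (H : Finset (G K)) (ψ : G K → ℂ) :
    iwOp u H ψ = (((Real.sqrt (Ideal.absNorm u.asIdeal : ℝ) : ℝ) : ℂ)⁻¹)
      • ∑ h ∈ H, fun x => ψ (x * h) := by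
  funext x
  simp only [iwOp, Pi.smul_apply, Finset.sum_apply, smul_eq_mul]

theorem zero_mem_ic439 (𝔫 : Ideal (𝓞 K)) (v : HeightOneSpectrum (𝓞 K)) :
    (0 : v.adicCompletion K) ∈ idealClosure 𝔫 v := by
  have h := embO_mem_ic439 v (𝔫.zero_mem)
  have e : embO439 v (0 : 𝓞 K) = 0 := by simp [embO439]
  rwa [e] at h

/-- The level group at a place dividing the level lies in the Iwahori subgroup. -/
theorem inIwahori_of_level439 {𝔫 : Ideal (𝓞 K)} {u : HeightOneSpectrum (𝓞 K)}
    (hu : u.asIdeal ∣ 𝔫) {k : G K} (hk : InLevelGroup 𝔫 k) : T5.InIwahori u k := by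
  have hint : ∀ (M : Matrix (Fin 2) (Fin 2) (u.adicCompletion K)),
      (∀ i j, (M - 1) i j ∈ idealClosure 𝔫 u) → ∀ i j, Valued.v (M i j) ≤ 1 := by
    intro M hM i j
    have e : M i j = (M - 1) i j + (1 : Matrix (Fin 2) (Fin 2) (u.adicCompletion K)) i j := by
      rw [Matrix.sub_apply, sub_add_cancel]
    rw [e]
    refine (Valuation.map_add _ _ _).trans (max_le (ic_lt_one439 hu (hM i j)).le ?_)
    by_cases hij : i = j
    · subst hij
      rw [Matrix.one_apply_eq, map_one]
    · rw [Matrix.one_apply_ne hij, map_zero]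
      exact zero_le
  refine ⟨fun i j => ?_, fun i j => ?_, ?_⟩
  · rw [HeightOneSpectrum.mem_adicCompletionIntegers]
    exact hint _ (fun i j => (hk.2 u i j).1) i j
  · rw [HeightOneSpectrum.mem_adicCompletionIntegers]
    exact hint _ (fun i j => (hk.2 u i j).2) i j
  · have h := ic_lt_one439 hu (hk.2 u 1 0).1
    rwa [Matrix.sub_apply, Matrix.one_apply_ne (by decide), sub_zero] at h

/-- `𝒰 ψ` is invariant under `U(𝔫)`. -/
theorem level_inv_iwOp439 {𝔫 : Ideal (𝓞 K)} {u : HeightOneSpectrum (𝓞 K)}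
    (hu : u.asIdeal ∣ 𝔫) {H : Finset (G K)} (hH : IsIwCosetSystem u H) {ψ : G K → ℂ}
    (hl : ∀ k : G K, InLevelGroup 𝔫 k → ∀ g : G K, ψ (g * k) = ψ g)
    (hi : IsIwInv 1 (fun _ => u) ψ) (k : G K) (hk : InLevelGroup 𝔫 k) (x : G K) :
    iwOp u H ψ (x * k) = iwOp u H ψ x := by
  classical
  unfold iwOp
  congr 1
  set kw : G K := locFin129 u (finCompHom129 u k) with hkw
  set k' : G K := kw⁻¹ * k with hk'
  have hkwloc : IsLocalAtFin u kw := isLocalAtFin_locFin129 _ _
  have hkwI : T5.InIwahori u kw := by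
    rw [inIwahori_iff340, hkw, finCompHom129_locFin129, ← inIwahori_iff340]
    exact inIwahori_of_level439 hu hk
  have hk'w : finCompHom129 u k' = 1 := by
    rw [hk', map_mul, map_inv, hkw, finCompHom129_locFin129, inv_mul_cancel]
  have hk'v : ∀ v : HeightOneSpectrum (𝓞 K), v ≠ u →
      finCompHom129 v k' = finCompHom129 v k := by
    intro v hv
    rw [hk', map_mul, map_inv, hkw, finCompHom129_locFin129_of_ne _ _ hv, inv_one, one_mul]
  have hk'inf : ∀ w : InfinitePlace K, TrivAtInf w k' := by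
    intro w
    rw [trivAtInf_iff129, hk', map_mul, map_inv, hkw, infCompHom129_locFin129, inv_one,
      one_mul, ← trivAtInf_iff129]
    exact hk.1 w
  have hk'L : InLevelGroup 𝔫 k' := by
    refine ⟨hk'inf, fun v i j => ?_⟩
    by_cases hv : v = u
    · subst hv
      have e1 : finComp v k' = 1 := by
        rw [← coe_finCompHom129, hk'w]; rfl
      have e2 : finComp v k'⁻¹ = 1 := by
        rw [← coe_finCompHom129, map_inv, hk'w, inv_one]; rfl
      rw [e1, e2, sub_self]
      exact ⟨zero_mem_ic439 𝔫 v, zero_mem_ic439 𝔫 v⟩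
    · have e1 : finComp v k' = finComp v k := by
        rw [← coe_finCompHom129, hk'v v hv]; rfl
      have e2 : finComp v k'⁻¹ = finComp v k⁻¹ := by
        rw [← coe_finCompHom129, map_inv, hk'v v hv, ← map_inv]; rfl
      rw [e1, e2]
      exact hk.2 v i j
  have hkk : k = kw * k' := by rw [hk']; group
  have hterm : ∀ h ∈ H, ψ (x * k * h) = ψ (x * (kw * h)) := by
    intro h hh
    have hcomm : k' * h = h * k' := (commute_of_local340 (hH.2.1 h hh).1 hk'w).symm
    have e : x * k * h = x * (kw * h) * k' := by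
      rw [hkk, mul_assoc, mul_assoc kw, hcomm]
      group
    rw [e]
    exact hl k' hk'L _
  rw [Finset.sum_congr rfl hterm]
  have himg : ∑ h ∈ H, ψ (x * (kw * h)) = ∑ h ∈ H.image (fun h => kw * h), ψ (x * h) := by
    rw [Finset.sum_image (fun a _ b _ hab => mul_right_injective kw hab)]
  rw [himg]
  exact iwSum_indep340 (isIwCosetSystem_translate340 hH hkwloc hkwI) hH ψ
    (fun b hb hbI g => isIwInv_local340 (o := fun _ => u) hi Nat.one_pos b hb hbI g) x

/-! ## The shift -/

/-- A scalar uniformiser is central. -/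
theorem central_scalar439 {u : HeightOneSpectrum (𝓞 K)} {z : G K}
    (hz : IsScalarUniformizerAt u z) (g : G K) : z * g = g * z := by
  obtain ⟨hzloc, c, -, hzc⟩ := hz
  rw [isLocalAtFin_iff129] at hzloc
  apply G_ext129
  · intro w
    rw [map_mul, map_mul, hzloc.1 w, one_mul, mul_one]
  · intro v
    by_cases hv : v = u
    · subst hv
      apply Units.ext
      rw [map_mul, map_mul, Matrix.GeneralLinearGroup.coe_mul,
        Matrix.GeneralLinearGroup.coe_mul, coe_finCompHom129, coe_finCompHom129, hzc]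
      ext i j
      rw [Matrix.diagonal_mul, Matrix.mul_diagonal, mul_comm]
    · rw [map_mul, map_mul, hzloc.2 v hv, one_mul, mul_one]

theorem central_zpow439 {u : HeightOneSpectrum (𝓞 K)} {z : G K}
    (hz : IsScalarUniformizerAt u z) (k : ℤ) (g x : G K) : x * g * z ^ k = x * z ^ k * g := by
  have hc : Commute z g := central_scalar439 hz g
  have := (hc.zpow_left k).eq
  rw [mul_assoc, ← this, ← mul_assoc]

theorem isLocalAtFin_zpow439 {u : HeightOneSpectrum (𝓞 K)} {z : G K}
    (hz : IsLocalAtFin u z) (k : ℤ) : IsLocalAtFin u (z ^ k) := by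
  rw [isLocalAtFin_iff129] at *
  exact ⟨fun w => by rw [map_zpow, hz.1 w, one_zpow],
    fun v hv => by rw [map_zpow, hz.2 v hv, one_zpow]⟩

/-! ## The leaf -/

/-- **LEAF T7.L2.3.5.3 = DB.3 OPS**, verbatim. -/
theorem opsClassC439 (K : Type) [Field K] [NumberField K] : OpsClassC K := by
  intro 𝔫 r u H z _ hr hu hH hz
  refine ⟨fun c ψ k hψ => ?_, fun c ψ hψ => ?_, fun ψ k => ?_⟩
  · -- the shift
    have hpre := isPre_translate439 (isPre_of_eig439 hψ) hr hu (isLocalAtFin_zpow439 hz.1 k)
    refine isEig_of_pre439 (ψ := shiftOp z k ψ) hpre (fun k' hk' g => ?_) ?_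
    · show ψ (g * k' * z ^ k) = ψ (g * z ^ k)
      rw [central_zpow439 hz]
      exact hψ.inv.cusp.aut.level_inv k' hk' _
    · intro h h1 h2 h3 x
      show ψ (x * h * z ^ k) = ψ (x * z ^ k)
      rw [central_zpow439 hz]
      exact hψ.inv.iw h h1 h2 h3 _
  · -- the Iwahori operator
    have hpre : IsPre439 𝔫 r c (iwOp u H ψ) := by
      rw [iwOp_eq_sum439]
      exact isPre_smul439 _ (isPre_sum439 H _ fun h hh =>
        isPre_translate439 (isPre_of_eig439 hψ) hr hu (hH.2.1 h hh).1)
    exact isEig_of_pre439 hpre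
      (fun k hk g => level_inv_iwOp439 hu hH hψ.inv.cusp.aut.level_inv hψ.inv.iw k hk g)
      (isIwInv_iwOp340 (o := fun _ => u) Nat.one_pos hH hψ.inv.iw)
  · exact (shiftOp_iwOp_comm340 hz hH k ψ).symm

end Fermat.Agent.LT.T7.H439

end
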