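import Mathlib
import Fermat.Agent.LT.T7.H893.SupplyFamSpec
import Fermat.Agent.LT.T5.H277.Coeff

/-!
# Row LT, tower T7, node T7.L2.1.F (second cut of helper893): the leaves downstairs
# F4 `KillUpC`, F6 `ClassDownC`, F7 `CommDownC`, F8 `KillDownC` (helper439, OFF-MAIN, spare)

VERBATIM vs `T7/H893/SupplyFamSpec.lean` (helper893@a538b800c), unconditional.

* `Rconv (down [] 0 0) ψ = R(F₁ []) (R(f₂) ψ)` (`regL u z H 0 0 f₂ = f₂`, `Rconv_Rconv277`);
* `Rconv (ltr b φ) ψ = (R(φ) ψ)(· b)`, `Rconv (iwL w H φ) ψ = iwOp w H (R(φ) ψ)` (left invariance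
  of the Haar measure, finite sums), hence
  `Rconv (regL w z H k m φ) ψ = shiftOp z k ((iwOp w H)^[m] (R(φ) ψ))`.
-/

set_option autoImplicit false

open AutomorphicForm IsDedekindDomain NumberField MeasureTheory
open scoped ComplexConjugate

noncomputable section

namespace Fermat.Agent.LT.T7.H439

open Fermat.Agent.LT.H556 Fermat.Agent.LT.H556.A0 Fermat.Agent.LT.T7 Fermat.Agent.LT.T7.H893
open Fermat.Agent.LT

attribute [local instance] Fermat.Agent.LT.T5.instMeasurableSpaceG

section OneField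

variable {K : Type} [Field K] [NumberField K]

theorem regL_zero439 (w : HeightOneSpectrum (𝓞 K)) (z : G K) (H : Finset (G K))
    (φ : G K → ℂ) : regL w z H 0 0 φ = φ := by
  funext y
  simp [regL, ltr]

/-! ### continuity and compact support of the translates -/

theorem continuous_ltr439 (b : G K) {φ : G K → ℂ} (h : Continuous φ) :
    Continuous (ltr b φ) :=
  h.comp (continuous_const.mul continuous_id)

theorem hasCompactSupport_ltr439 (b : G K) {φ : G K → ℂ} (h : HasCompactSupport φ) :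
    HasCompactSupport (ltr b φ) := by
  have := h.comp_homeomorph (Homeomorph.mulLeft b⁻¹)
  exact this

theorem continuous_iwL439 (w : HeightOneSpectrum (𝓞 K)) (H : Finset (G K)) {φ : G K → ℂ}
    (h : Continuous φ) : Continuous (iwL w H φ) := by
  unfold iwL
  exact continuous_const.mul
    (continuous_finsetSum _ fun b _ => h.comp (continuous_const.mul continuous_id))

theorem iwL_eq439 (w : HeightOneSpectrum (𝓞 K)) (H : Finset (G K)) (φ : G K → ℂ) :
    iwL w H φ = fun y => ((Real.sqrt (Ideal.absNorm w.asIdeal : ℝ) : ℝ) : ℂ)⁻¹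
      * ∑ h ∈ H, ltr h φ y := rfl

theorem hasCompactSupport_iwL439 (w : HeightOneSpectrum (𝓞 K)) (H : Finset (G K))
    {φ : G K → ℂ} (h : HasCompactSupport φ) : HasCompactSupport (iwL w H φ) := by
  classical
  rw [iwL_eq439]
  have hs : HasCompactSupport (fun y => ∑ b ∈ H, ltr b φ y) := by
    induction H using Finset.induction_on with
    | empty =>
      simp only [Finset.sum_empty]
      exact HasCompactSupport.zero
    | insert a s ha ih =>
      have : (fun y => ∑ b ∈ insert a s, ltr b φ y)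
          = (fun y => ltr a φ y) + fun y => ∑ b ∈ s, ltr b φ y := by
        funext y
        simp [Finset.sum_insert ha]
      rw [this]
      exact (hasCompactSupport_ltr439 a h).add ih
  exact hs.mul_left

theorem continuous_iter_iwL439 (w : HeightOneSpectrum (𝓞 K)) (H : Finset (G K)) {φ : G K → ℂ}
    (h : Continuous φ) (m : ℕ) : Continuous ((iwL w H)^[m] φ) := by
  induction m with
  | zero => simpa using h
  | succ n ih =>
    rw [Function.iterate_succ_apply']
    exact continuous_iwL439 w H ih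

theorem hasCompactSupport_iter_iwL439 (w : HeightOneSpectrum (𝓞 K)) (H : Finset (G K))
    {φ : G K → ℂ} (h : HasCompactSupport φ) (m : ℕ) :
    HasCompactSupport ((iwL w H)^[m] φ) := by
  induction m with
  | zero => simpa using h
  | succ n ih =>
    rw [Function.iterate_succ_apply']
    exact hasCompactSupport_iwL439 w H ih

theorem continuous_regL439 (w : HeightOneSpectrum (𝓞 K)) (z : G K) (H : Finset (G K)) (k : ℤ)
    (m : ℕ) {φ : G K → ℂ} (h : Continuous φ) : Continuous (regL w z H k m φ) :=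
  continuous_ltr439 _ (continuous_iter_iwL439 w H h m)

theorem hasCompactSupport_regL439 (w : HeightOneSpectrum (𝓞 K)) (z : G K) (H : Finset (G K))
    (k : ℤ) (m : ℕ) {φ : G K → ℂ} (h : HasCompactSupport φ) :
    HasCompactSupport (regL w z H k m φ) :=
  hasCompactSupport_ltr439 _ (hasCompactSupport_iter_iwL439 w H h m)

/-! ### the operators of the translates -/

variable {μ : Measure (G K)} {F : Set (G K)}

theorem Rconv_ltr439 (hF : T5.IsFrame μ F) (b : G K) (φ ψ : G K → ℂ) (x : G K) :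
    T5.Rconv μ (ltr b φ) ψ x = T5.Rconv μ φ ψ (x * b) := by
  have : BorelSpace (G K) := T5.H277.borelSpaceG277
  have := hF.haar
  unfold T5.Rconv ltr
  have h := integral_mul_left_eq_self (μ := μ) (fun y => φ (b⁻¹ * y) * ψ (x * y)) b
  rw [← h]
  congr 1
  funext y
  simp only [inv_mul_cancel_left, mul_assoc]

theorem integrable_mul439 (hF : T5.IsFrame μ F) {φ ψ : G K → ℂ} (hφ : Continuous φ)
    (hφs : HasCompactSupport φ) (hψ : Continuous ψ) (x : G K) :
    Integrable (fun y => φ y * ψ (x * y)) μ := by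
  have : BorelSpace (G K) := T5.H277.borelSpaceG277
  have := hF.haar
  apply Continuous.integrable_of_hasCompactSupport
  · exact hφ.mul (hψ.comp (continuous_const.mul continuous_id))
  · exact hφs.mul_right

theorem Rconv_iwL439 (hF : T5.IsFrame μ F) (w : HeightOneSpectrum (𝓞 K)) (H : Finset (G K))
    {φ ψ : G K → ℂ} (hφ : Continuous φ) (hφs : HasCompactSupport φ) (hψ : Continuous ψ) :
    T5.Rconv μ (iwL w H φ) ψ = iwOp w H (T5.Rconv μ φ ψ) := by
  funext x
  have h1 : T5.Rconv μ (iwL w H φ) ψ x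
      = ((Real.sqrt (Ideal.absNorm w.asIdeal : ℝ) : ℝ) : ℂ)⁻¹
        * ∑ h ∈ H, T5.Rconv μ (ltr h φ) ψ x := by
    unfold T5.Rconv
    rw [← integral_finsetSum]
    · rw [← integral_const_mul]
      congr 1
      funext y
      simp only [iwL, ltr]
      rw [mul_assoc, Finset.sum_mul]
    · intro h _
      exact integrable_mul439 hF (continuous_ltr439 h hφ) (hasCompactSupport_ltr439 h hφs) hψ x
  rw [h1]
  unfold iwOp
  congr 1
  exact Finset.sum_congr rfl fun h _ => Rconv_ltr439 hF h φ ψ x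

theorem Rconv_iter_iwL439 (hF : T5.IsFrame μ F) (w : HeightOneSpectrum (𝓞 K))
    (H : Finset (G K)) {φ ψ : G K → ℂ} (hφ : Continuous φ) (hφs : HasCompactSupport φ)
    (hψ : Continuous ψ) (m : ℕ) :
    T5.Rconv μ ((iwL w H)^[m] φ) ψ = (iwOp w H)^[m] (T5.Rconv μ φ ψ) := by
  induction m with
  | zero => rfl
  | succ n ih =>
    rw [Function.iterate_succ_apply', Function.iterate_succ_apply',
      Rconv_iwL439 hF w H (continuous_iter_iwL439 w H hφ n)
        (hasCompactSupport_iter_iwL439 w H hφs n) hψ, ih]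

theorem Rconv_regL439 (hF : T5.IsFrame μ F) (w : HeightOneSpectrum (𝓞 K)) (z : G K)
    (H : Finset (G K)) (k : ℤ) (m : ℕ) {φ ψ : G K → ℂ} (hφ : Continuous φ)
    (hφs : HasCompactSupport φ) (hψ : Continuous ψ) :
    T5.Rconv μ (regL w z H k m φ) ψ = shiftOp z k ((iwOp w H)^[m] (T5.Rconv μ φ ψ)) := by
  funext x
  unfold regL
  rw [Rconv_ltr439 hF, Rconv_iter_iwL439 hF w H hφ hφs hψ m]
  rfl

theorem iwOp_zero439 (w : HeightOneSpectrum (𝓞 K)) (H : Finset (G K)) :
    iwOp w H (fun _ => (0 : ℂ)) = fun _ => 0 := by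
  funext x
  simp [iwOp]

theorem iter_iwOp_zero439 (w : HeightOneSpectrum (𝓞 K)) (H : Finset (G K)) (m : ℕ) :
    (iwOp w H)^[m] (fun _ => (0 : ℂ)) = fun _ => 0 := by
  induction m with
  | zero => rfl
  | succ n ih => rw [Function.iterate_succ_apply', ih, iwOp_zero439]

theorem continuous_iwOp439 (w : HeightOneSpectrum (𝓞 K)) (H : Finset (G K)) {ψ : G K → ℂ}
    (h : Continuous ψ) : Continuous (iwOp w H ψ) := by
  unfold iwOp
  exact continuous_const.mul
    (continuous_finsetSum _ fun b _ => h.comp (continuous_id.mul continuous_const))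

theorem continuous_shiftOp439 (z : G K) (k : ℤ) {ψ : G K → ℂ} (h : Continuous ψ) :
    Continuous (shiftOp z k ψ) :=
  h.comp (continuous_id.mul continuous_const)

/-! ### the sum of the left translates -/

theorem continuous_lsum439 (H : Finset (G K)) {φ : G K → ℂ} (h : Continuous φ) :
    Continuous (lsum H φ) := by
  unfold lsum
  exact continuous_finsetSum _ fun b _ => h.comp (continuous_const.mul continuous_id)

theorem hasCompactSupport_lsum439 (H : Finset (G K)) {φ : G K → ℂ}
    (h : HasCompactSupport φ) : HasCompactSupport (lsum H φ) := by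
  classical
  have e : lsum H φ = fun y => ∑ b ∈ H, ltr b φ y := rfl
  rw [e]
  induction H using Finset.induction_on with
  | empty =>
    simp only [Finset.sum_empty]
    exact HasCompactSupport.zero
  | insert a s ha ih =>
    have : (fun y => ∑ b ∈ insert a s, ltr b φ y)
        = (fun y => ltr a φ y) + fun y => ∑ b ∈ s, ltr b φ y := by
      funext y
      simp [Finset.sum_insert ha]
    rw [this]
    exact (hasCompactSupport_ltr439 a h).add (ih rfl)

theorem Rconv_lsum439 (hF : T5.IsFrame μ F) (H : Finset (G K))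
    {φ ψ : G K → ℂ} (hφ : Continuous φ) (hφs : HasCompactSupport φ) (hψ : Continuous ψ) :
    T5.Rconv μ (lsum H φ) ψ = cosetOp H (T5.Rconv μ φ ψ) := by
  funext x
  have h1 : T5.Rconv μ (lsum H φ) ψ x = ∑ h ∈ H, T5.Rconv μ (ltr h φ) ψ x := by
    unfold T5.Rconv
    rw [← integral_finsetSum]
    · congr 1
      funext y
      simp only [lsum, ltr]
      rw [Finset.sum_mul]
    · intro h _
      exact integrable_mul439 hF (continuous_ltr439 h hφ) (hasCompactSupport_ltr439 h hφs) hψ x
  rw [h1]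
  unfold cosetOp
  exact Finset.sum_congr rfl fun h _ => Rconv_ltr439 hF h φ ψ x

theorem cosetOp_zero439 (H : Finset (G K)) :
    cosetOp H (fun _ => (0 : ℂ)) = fun _ => 0 := by
  funext x
  simp [cosetOp]

end OneField

/-! ## The leaves -/

section Leaves

variable {K K' : Type} [Field K] [NumberField K] [Field K'] [NumberField K'] [Algebra K K']

omit [Algebra K K'] in
theorem down_nil439 (B : L2Base K K') (E : L2Pre K K') :
    E.down B [] 0 0 = T5.conv B.R.μ (E.F₁ []) E.f₂ := by
  simp only [L2Pre.down, regL_zero439]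

theorem Rconv_down_nil439 {ℓ : ℕ} {Φ : HeckeEigensystem K' ℂ} {B : L2Base K K'}
    (hB : IsL2Base ℓ Φ B) {g : G K'} {E : L2Pre K K'} (hE : IsL2Pre ℓ Φ B g E)
    {ψ : G K → ℂ} (hψ : Continuous ψ) :
    T5.Rconv B.R.μ (E.down B [] 0 0) ψ
      = T5.Rconv B.R.μ (E.F₁ []) (T5.Rconv B.R.μ E.f₂ ψ) := by
  funext x
  rw [down_nil439]
  have h1 := hE.dn1_test [] (by simp)
  exact (T5.H277.Rconv_Rconv277 hB.frame.frame h1.cont h1.supp hE.dn2_test.cont
    hE.dn2_test.supp hψ x).symm

/-- **LEAF T7.L2.1.F6 = CLASS-DOWN**, verbatim. -/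
theorem classDownC439 (K K' : Type) [Field K] [NumberField K] [Field K'] [NumberField K']
    [Algebra K K'] : ClassDownC K K' := by
  intro ℓ Φ B hB g _ E hE ψ c hψ
  rw [Rconv_down_nil439 hB hE hψ.inv.cusp.cont]
  exact hE.dn1_class _ c (hE.dn2_class ψ c hψ)

/-- **LEAF T7.L2.1.F7 = COMM-DOWN**, verbatim. -/
theorem commDownC439 (K K' : Type) [Field K] [NumberField K] [Field K'] [NumberField K']
    [Algebra K K'] : CommDownC K K' := by
  intro ℓ Φ B hB g _ E hE ψ hψ H z hH hz
  have hc : Continuous ψ := hψ.cusp.cont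
  have h2 := hE.dn2_comm ψ hψ H z hH hz
  have hw : IsWFn E.𝔫 B.R.r 1 (fun _ => B.u) (T5.Rconv B.R.μ E.f₂ ψ) := hE.dn2_wfn ψ hψ
  have h1 := hE.dn1_comm _ hw H z hH hz
  refine ⟨fun x => ?_, fun k x => ?_⟩
  · rw [Rconv_down_nil439 hB hE (continuous_iwOp439 B.u H hc), Rconv_down_nil439 hB hE hc]
    have e2 : T5.Rconv B.R.μ E.f₂ (iwOp B.u H ψ) = iwOp B.u H (T5.Rconv B.R.μ E.f₂ ψ) :=
      funext h2.1
    rw [e2]
    exact h1.1 x
  · rw [Rconv_down_nil439 hB hE (continuous_shiftOp439 z k hc), Rconv_down_nil439 hB hE hc]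
    have e2 : T5.Rconv B.R.μ E.f₂ (shiftOp z k ψ) = shiftOp z k (T5.Rconv B.R.μ E.f₂ ψ) :=
      funext (h2.2 k)
    rw [e2]
    exact h1.2 k x

/-- **LEAF T7.L2.1.F8 = KILL-DOWN**, verbatim. -/
theorem killDownC439 (K K' : Type) [Field K] [NumberField K] [Field K'] [NumberField K']
    [Algebra K K'] : KillDownC K K' := by
  intro ℓ Φ B hB g _ E hE X k m hX ψ hψ horth x
  have hF := hB.frame.frame
  have h1 := hE.dn1_test X hX
  have h2 := hE.dn2_test
  have hc : Continuous ψ := hψ.cont
  have hkill : T5.Rconv B.R.μ E.f₂ ψ = fun _ => 0 := funext (hE.dn2_kill ψ hψ horth)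
  have hreg : T5.Rconv B.R.μ (regL B.u E.z E.H k m E.f₂) ψ = fun _ => 0 := by
    rw [Rconv_regL439 hF B.u E.z E.H k m h2.cont h2.supp hc, hkill, iter_iwOp_zero439]
    rfl
  have := T5.H277.Rconv_Rconv277 hF h1.cont h1.supp
    (continuous_regL439 B.u E.z E.H k m h2.cont)
    (hasCompactSupport_regL439 B.u E.z E.H k m h2.supp) hc x
  unfold L2Pre.down
  rw [← this, hreg]
  simp [T5.Rconv]

/-- **LEAF T7.L2.1.F4 = KILL-UP**, verbatim. -/
theorem killUpC439 (K K' : Type) [Field K] [NumberField K] [Field K'] [NumberField K']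
    [Algebra K K'] : KillUpC K K' := by
  intro ℓ Φ B hB g _ E hE X k m hX ψ hψ horth x
  have hF := hB.frame'.frame
  have h1 := hE.up1_test X hX
  have h2 := hE.up2_test
  have hc : Continuous ψ := hψ.cont
  have hkill : T5.Rconv B.R'.μ E.φ₂ ψ = fun _ => 0 := funext (hE.up2_kill ψ hψ horth)
  have hrc := continuous_regL439 (B.o 0) E.z' E.H' k m h2.cont
  have hrs := hasCompactSupport_regL439 (B.o 0) E.z' E.H' k m h2.supp
  have hreg : T5.Rconv B.R'.μ (lsum E.Hg (regL (B.o 0) E.z' E.H' k m E.φ₂)) ψ = fun _ => 0 := by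
    rw [Rconv_lsum439 hF E.Hg hrc hrs hc,
      Rconv_regL439 hF (B.o 0) E.z' E.H' k m h2.cont h2.supp hc, hkill, iter_iwOp_zero439]
    have : shiftOp E.z' k (fun _ : G K' => (0 : ℂ)) = fun _ => 0 := rfl
    rw [this, cosetOp_zero439]
  have := T5.H277.Rconv_Rconv277 hF h1.cont h1.supp
    (continuous_lsum439 E.Hg hrc) (hasCompactSupport_lsum439 E.Hg hrs) hc x
  unfold L2Pre.up
  rw [← this, hreg]
  simp [T5.Rconv]

end Leaves

end Fermat.Agent.LT.T7.H439

end
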