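import Mathlib
import Fermat.Agent.LT.T7.H281.OpUpSpec
import Fermat.Agent.LT.T7.H439.SupplyDown
import Fermat.Agent.LT.T7.H439.OpsClass
import Fermat.Agent.LT.H129.HeckeLevel

/-!
# Row LT, tower T7, leaf T7.L2.1.F3 `OpUpC`, cut of helper281: sub-leaves A, C, S
# (helper439, OFF-MAIN, spare)

VERBATIM vs `T7/H281/OpUpSpec.lean` (helper281@a99fa3f20, sha256 2dcc737e), unconditional.

* A `rconvOpsC439 : RconvOpsC281 K`   (`Rconv_Rconv277`, `Rconv_lsum439`, `Rconv_regL439`);
* C `iwInvC439 : IwInvC281 K`         (`level_inv_iwOp_gen439`, kit of helper340);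
* S `shiftInvC439 : ShiftInvC281 K`   (`central_scalar439`; two scalar uniformisers differ by a
  unit scalar, which lies in the Iwahori subgroup).
-/

set_option autoImplicit false
set_option linter.unusedSectionVars false

open AutomorphicForm IsDedekindDomain NumberField MeasureTheory
open scoped ComplexConjugate
open Fermat.Agent.LT.H556 Fermat.Agent.LT.H556.A0 Fermat.Agent.LT.H129

noncomputable section

namespace Fermat.Agent.LT.T7.H439

open Fermat.Agent.LT Fermat.Agent.LT.T7 Fermat.Agent.LT.T7.H893 Fermat.Agent.LT.T7.H340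
open Fermat.Agent.LT.T7.H281

attribute [local instance] Fermat.Agent.LT.T5.instMeasurableSpaceG

variable {K : Type} [Field K] [NumberField K]

/-! ## A -/

/-- **SUB-LEAF A = RCONV-OPS**, verbatim. -/
theorem rconvOpsC439 (K : Type) [Field K] [NumberField K] : RconvOpsC281 K := by
  intro μ F hF φ₁ φ₂ ψ h1c h1s h2c h2s hψ w Hg H z k m x
  have hrc := continuous_regL439 w z H k m h2c
  have hrs := hasCompactSupport_regL439 w z H k m h2s
  have e : T5.Rconv μ (lsum Hg (regL w z H k m φ₂)) ψ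
      = cosetOp Hg (shiftOp z k ((iwOp w H)^[m] (T5.Rconv μ φ₂ ψ))) := by
    rw [Rconv_lsum439 hF Hg hrc hrs hψ, Rconv_regL439 hF w z H k m h2c h2s hψ]
  rw [← e]
  exact (T5.H277.Rconv_Rconv277 hF h1c h1s (continuous_lsum439 Hg hrc)
    (hasCompactSupport_lsum439 Hg hrs) hψ x).symm

/-! ## C -/

theorem one_integral439 (v : HeightOneSpectrum (𝓞 K)) (i j : Fin 2) :
    (1 : Matrix (Fin 2) (Fin 2) (v.adicCompletion K)) i j ∈ v.adicCompletionIntegers K := by
  by_cases hij : i = j
  · subst hij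
    rw [Matrix.one_apply_eq]
    exact one_mem _
  · rw [Matrix.one_apply_ne hij]
    exact zero_mem _

/-- An element supported at a place dividing the level is a good translation. -/
theorem isGood_of_local439 {𝔫₀ : Ideal (𝓞 K)} {u : HeightOneSpectrum (𝓞 K)}
    (hu : u.asIdeal ∣ 𝔫₀) {h : G K} (hh : IsLocalAtFin u h) : IsGoodTransl281 𝔫₀ h := by
  refine ⟨hh.1, fun v hv => ?_⟩
  have hne : v ≠ u := by
    rintro rfl
    exact hv hu
  have e1 : finComp v h = 1 := hh.2 v hne
  have e2 : finComp v h⁻¹ = 1 := (isLocalAtFin_inv129 hh).2 v hne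
  constructor
  · intro i j
    rw [e1]
    exact one_integral439 v i j
  · intro i j
    rw [e2]
    exact one_integral439 v i j

/-- `𝒰 ψ` is invariant under `U(𝔫)` (general form). -/
theorem level_inv_iwOp_gen439 {𝔫 : Ideal (𝓞 K)} {u : HeightOneSpectrum (𝓞 K)}
    (hu : u.asIdeal ∣ 𝔫) {H : Finset (G K)} (hH : IsIwCosetSystem u H) {ψ : G K → ℂ}
    (hl : ∀ k : G K, InLevelGroup 𝔫 k → ∀ g : G K, ψ (g * k) = ψ g)
    (hloc : ∀ b : G K, IsLocalAtFin u b → T5.InIwahori u b → ∀ g : G K, ψ (g * b) = ψ g)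
    (k : G K) (hk : InLevelGroup 𝔫 k) (x : G K) :
    iwOp u H ψ (x * k) = iwOp u H ψ x := by
  classical
  unfold iwOp
  congr 1
  set kw : G K := locFin129 u (finCompHom129 u k) with hkw
  set k' : G K := kw⁻¹ * k with hk'
  have hkwloc : IsLocalAtFin u kw := isLocalAtFin_locFin129 _ _
  have hkwI : T5.InIwahori u kw := by
    rw [inIwahori_iff340, hkw, finCompHom129_locFin129, ← inIwahori_iff340]
    exact inIwahori_of_level439 hu hk
  have hk'w : finCompHom129 u k' = 1 := by
    rw [hk', map_mul, map_inv, hkw, finCompHom129_locFin129, inv_mul_cancel]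
  have hk'v : ∀ v : HeightOneSpectrum (𝓞 K), v ≠ u →
      finCompHom129 v k' = finCompHom129 v k := by
    intro v hv
    rw [hk', map_mul, map_inv, hkw, finCompHom129_locFin129_of_ne _ _ hv, inv_one, one_mul]
  have hk'inf : ∀ w : InfinitePlace K, TrivAtInf w k' := by
    intro w
    rw [trivAtInf_iff129, hk', map_mul, map_inv, hkw, infCompHom129_locFin129, inv_one,
      one_mul, ← trivAtInf_iff129]
    exact hk.1 w
  have hk'L : InLevelGroup 𝔫 k' := by
    refine ⟨hk'inf, fun v i j => ?_⟩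
    by_cases hv : v = u
    · subst hv
      have e1 : finComp v k' = 1 := by
        rw [← coe_finCompHom129, hk'w]; rfl
      have e2 : finComp v k'⁻¹ = 1 := by
        rw [← coe_finCompHom129, map_inv, hk'w, inv_one]; rfl
      rw [e1, e2, sub_self]
      exact ⟨zero_mem_ic439 𝔫 v, zero_mem_ic439 𝔫 v⟩
    · have e1 : finComp v k' = finComp v k := by
        rw [← coe_finCompHom129, hk'v v hv]; rfl
      have e2 : finComp v k'⁻¹ = finComp v k⁻¹ := by
        rw [← coe_finCompHom129, map_inv, hk'v v hv, ← map_inv]; rfl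
      rw [e1, e2]
      exact hk.2 v i j
  have hkk : k = kw * k' := by rw [hk']; group
  have hterm : ∀ h ∈ H, ψ (x * k * h) = ψ (x * (kw * h)) := by
    intro h hh
    have hcomm : k' * h = h * k' := (commute_of_local340 (hH.2.1 h hh).1 hk'w).symm
    have e : x * k * h = x * (kw * h) * k' := by
      rw [hkk, mul_assoc, mul_assoc kw, hcomm]
      group
    rw [e]
    exact hl k' hk'L _
  rw [Finset.sum_congr rfl hterm]
  have himg : ∑ h ∈ H, ψ (x * (kw * h)) = ∑ h ∈ H.image (fun h => kw * h), ψ (x * h) := by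
    rw [Finset.sum_image (fun a _ b _ hab => mul_right_injective kw hab)]
  rw [himg]
  exact iwSum_indep340 (isIwCosetSystem_translate340 hH hkwloc hkwI) hH ψ hloc x

/-- **SUB-LEAF C = IW-INV**, verbatim. -/
theorem iwInvC439 (K : Type) [Field K] [NumberField K] : IwInvC281 K := by
  intro 𝔫₀ l o hl ho H hH
  refine ⟨fun h hh => isGood_of_local439 (ho 0 hl) (hH.2.1 h hh).1,
    fun ψ hR hI => ⟨?_, isIwInv_iwOp340 hl hH hI⟩⟩
  intro k hk x
  exact level_inv_iwOp_gen439 (ho 0 hl) hH hR
    (fun b hb hbI g => isIwInv_local340 hI hl b hb hbI g) k hk x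

/-! ## S -/

/-- Two scalar uniformisers at `v` differ by an element of the Iwahori subgroup. -/
theorem inIwahori_quot439 {v : HeightOneSpectrum (𝓞 K)} {z z₀ : G K}
    (hz : IsScalarUniformizerAt v z) (hz₀ : IsScalarUniformizerAt v z₀) :
    T5.InIwahori v (z₀⁻¹ * z) := by
  obtain ⟨hloc, c, hc, hzc⟩ := hz
  obtain ⟨hloc₀, c₀, hc₀, hzc₀⟩ := hz₀
  have key : ∀ {a b : v.adicCompletion K} {x y : G K}, Valued.v a = WithZero.exp (-1 : ℤ) →
      Valued.v b = WithZero.exp (-1 : ℤ) → finComp v x = Matrix.diagonal (fun _ => a) →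
      finComp v y = Matrix.diagonal (fun _ => b) →
      ∀ i j, finComp v (y⁻¹ * x) i j
        = (Matrix.diagonal (fun _ : Fin 2 => b * a)) i j / (b * b) := by
    intro a b x y ha hb hx hy i j
    have hx' : ((finCompHom129 v x : GL (Fin 2) (v.adicCompletion K)) :
        Matrix (Fin 2) (Fin 2) (v.adicCompletion K)) = Matrix.diagonal (fun _ => a) := hx
    have hy' : ((finCompHom129 v y : GL (Fin 2) (v.adicCompletion K)) :
        Matrix (Fin 2) (Fin 2) (v.adicCompletion K)) = Matrix.diagonal (fun _ => b) := hy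
    rw [← coe_finCompHom129, map_mul, map_inv, inv_mul_apply129, hx', hy']
    have hdet : (Matrix.diagonal (fun _ : Fin 2 => b)).det = b * b := by
      rw [Matrix.det_diagonal, Fin.prod_univ_two]
    have hadj : Matrix.adjugate (Matrix.diagonal (fun _ : Fin 2 => b))
        = Matrix.diagonal (fun _ : Fin 2 => b) := by
      rw [Matrix.adjugate_fin_two]
      ext i j
      fin_cases i <;> fin_cases j <;> simp
    rw [hdet, hadj, Matrix.diagonal_mul_diagonal]
  have hint : ∀ {a b : v.adicCompletion K} {x y : G K}, Valued.v a = WithZero.exp (-1 : ℤ) →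
      Valued.v b = WithZero.exp (-1 : ℤ) → finComp v x = Matrix.diagonal (fun _ => a) →
      finComp v y = Matrix.diagonal (fun _ => b) → IsIntegralAt v (y⁻¹ * x) := by
    intro a b x y ha hb hx hy i j
    rw [key ha hb hx hy i j]
    have hval : Valued.v (b * a / (b * b)) = 1 := by
      rw [map_div₀, map_mul, map_mul, ha, hb]
      exact div_self (mul_ne_zero WithZero.exp_ne_zero WithZero.exp_ne_zero)
    by_cases hij : i = j
    · subst hij
      rw [Matrix.diagonal_apply_eq, HeightOneSpectrum.mem_adicCompletionIntegers, hval]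
    · rw [Matrix.diagonal_apply_ne _ hij, zero_div]
      exact (v.adicCompletionIntegers K).zero_mem
  refine ⟨hint hc hc₀ hzc hzc₀, ?_, ?_⟩
  · have e : (z₀⁻¹ * z)⁻¹ = z⁻¹ * z₀ := by group
    rw [e]
    exact hint hc₀ hc hzc₀ hzc
  · rw [key hc hc₀ hzc hzc₀ 1 0, Matrix.diagonal_apply_ne _ (by decide), zero_div, map_zero]
    exact zero_lt_one

/-- Invariance under the powers of an element under which `ψ` is invariant. -/
theorem inv_zpow439 {ψ : G K → ℂ} {b : G K} (h1 : ∀ x : G K, ψ (x * b) = ψ x) (k : ℤ)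
    (x : G K) : ψ (x * b ^ k) = ψ x := by
  have h2 : ∀ x : G K, ψ (x * b⁻¹) = ψ x := fun x => by
    have := h1 (x * b⁻¹)
    rw [inv_mul_cancel_right] at this
    exact this.symm
  induction k using Int.induction_on generalizing x with
  | zero => simp
  | succ n ih =>
    rw [zpow_add_one, ← mul_assoc, h1, ih]
  | pred n ih =>
    rw [zpow_sub_one, ← mul_assoc, h2, ih]

/-- **SUB-LEAF S = SHIFT-INV**, verbatim. -/
theorem shiftInvC439 (K : Type) [Field K] [NumberField K] : ShiftInvC281 K := by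
  intro 𝔫₀ l o hl ho z hz k
  refine ⟨isGood_of_local439 (ho 0 hl) (isLocalAtFin_zpow439 hz.1 k), fun ψ hR => ?_,
    fun ψ hI => ?_, fun z' hz' ψ hI x => ?_⟩
  · intro u hu x
    show ψ (x * u * z ^ k) = ψ (x * z ^ k)
    rw [central_zpow439 hz]
    exact hR u hu _
  · intro h h1 h2 h3 x
    show ψ (x * h * z ^ k) = ψ (x * z ^ k)
    rw [central_zpow439 hz]
    exact hI h h1 h2 h3 _
  · show ψ (x * z ^ k) = ψ (x * z' ^ k)
    have hb : ∀ y : G K, ψ (y * (z'⁻¹ * z)) = ψ y := fun y =>
      isIwInv_local340 hI hl (z'⁻¹ * z)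
        (isLocalAtFin_mul129 (isLocalAtFin_inv129 hz'.1) hz.1) (inIwahori_quot439 hz hz') y
    have hc : Commute z'⁻¹ z := (show Commute z z'⁻¹ from
      (central_scalar439 hz z'⁻¹)).symm
    have e : z ^ k = z' ^ k * (z'⁻¹ * z) ^ k := by
      rw [hc.mul_zpow, ← mul_assoc, inv_zpow, mul_inv_cancel, one_mul]
    rw [e, ← mul_assoc, inv_zpow439 hb]

end Fermat.Agent.LT.T7.H439

end
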