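import Mathlib
import Fermat.Agent.LT.T7.H439.OpUpLeaves

/-!
# Row LT, tower T7, leaf T7.L2.1.F3 `OpUpC`, cut of helper281: sub-leaves B, I, D and the leaf
# (helper439, OFF-MAIN, spare)

VERBATIM vs `T7/H281/OpUpSpec.lean` (helper281@a99fa3f20, sha256 2dcc737e), unconditional.

* B `translEigC439 : TranslEigC281 K`: `IsPre439` is stable under the right translation by a GOOD
  element `t` (`isPre_translate_good439`): `t` is trivial at infinity, hence commutes with the
  elements which are trivial at the finite places; at `v ∤ 𝔫₀` the conjugate `t⁻¹ H t` of a Hecke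
  coset system is a Hecke coset system (`isHeckeCosetSystem_conj439`); scalars are central.
* I `indepC439 : IndepC281 K`: `iwOp_indep340`; two systems of `U g U / U` are in bijection
  modulo `U` (`dblSum_indep439`; the level group is a group: `inLevelGroup_mul439`).
* D `dblInvC439 : DblInvC281 K`: `u' Hg` is again a system (`isDblCosetSystem_translate439`);
  `h a = a ((u₁ u₂)⁻¹ h (u₁ u₂))` for `a = u₁ g u₂` and `h` supported on the orbit.
* `opUpC439 : H893.OpUpC K K'` (the top `opUpC_of281` of helper281).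
-/

set_option autoImplicit false
set_option linter.unusedSectionVars false

open AutomorphicForm IsDedekindDomain NumberField MeasureTheory
open scoped ComplexConjugate
open Fermat.Agent.LT.H556 Fermat.Agent.LT.H556.A0 Fermat.Agent.LT.H129

noncomputable section

namespace Fermat.Agent.LT.T7.H439

open Fermat.Agent.LT Fermat.Agent.LT.T7 Fermat.Agent.LT.T7.H893 Fermat.Agent.LT.T7.H340
open Fermat.Agent.LT.T7.H281

attribute [local instance] Fermat.Agent.LT.T5.instMeasurableSpaceG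

variable {K : Type} [Field K] [NumberField K]

/-! ## Integrality -/

theorem isIntegralAt_mul439 {v : HeightOneSpectrum (𝓞 K)} {a b : G K}
    (ha : IsIntegralAt v a) (hb : IsIntegralAt v b) : IsIntegralAt v (a * b) := by
  show IsInt129 (v.adicCompletionIntegers K) (finCompHom129 v (a * b))
  rw [map_mul]
  exact isInt129_mul ha hb

theorem isIntegralAt_of_trivAtFin439 {v : HeightOneSpectrum (𝓞 K)} {a : G K}
    (ha : TrivAtFin v a) : IsIntegralAt v a := by
  intro i j
  have e : finComp v a = 1 := ha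
  rw [e]
  exact one_integral439 v i j

theorem trivAtFin_inv439 {v : HeightOneSpectrum (𝓞 K)} {a : G K} (ha : TrivAtFin v a) :
    TrivAtFin v a⁻¹ := by
  rw [trivAtFin_iff129] at *
  rw [map_inv, ha, inv_one]

theorem trivAtFin_mul439 {v : HeightOneSpectrum (𝓞 K)} {a b : G K} (ha : TrivAtFin v a)
    (hb : TrivAtFin v b) : TrivAtFin v (a * b) := by
  rw [trivAtFin_iff129] at *
  rw [map_mul, ha, hb, mul_one]

theorem trivAtInf_inv439 {w : InfinitePlace K} {a : G K} (ha : TrivAtInf w a) :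
    TrivAtInf w a⁻¹ := by
  rw [trivAtInf_iff129] at *
  rw [map_inv, ha, inv_one]

theorem trivAtInf_mul439 {w : InfinitePlace K} {a b : G K} (ha : TrivAtInf w a)
    (hb : TrivAtInf w b) : TrivAtInf w (a * b) := by
  rw [trivAtInf_iff129] at *
  rw [map_mul, ha, hb, mul_one]

/-! ## The level group is a group -/

theorem inLevelGroup_inv439 {𝔫 : Ideal (𝓞 K)} {u : G K} (hu : InLevelGroup 𝔫 u) :
    InLevelGroup 𝔫 u⁻¹ := by
  refine ⟨fun w => trivAtInf_inv439 (hu.1 w), fun v i j => ⟨(hu.2 v i j).2, ?_⟩⟩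
  rw [inv_inv]
  exact (hu.2 v i j).1

theorem ic_integral439 (𝔫 : Ideal (𝓞 K)) (v : HeightOneSpectrum (𝓞 K))
    {x : v.adicCompletion K} (hx : x ∈ idealClosure 𝔫 v) : Valued.v x ≤ 1 :=
  ic_val_le439 𝔫 v (fun m _ => v.intValuation_le_one m) hx

theorem ic_mul_core439 (𝔫 : Ideal (𝓞 K)) (v : HeightOneSpectrum (𝓞 K))
    {A B : Matrix (Fin 2) (Fin 2) (v.adicCompletion K)}
    (hA : ∀ i j, (A - 1) i j ∈ idealClosure 𝔫 v) (hB : ∀ i j, (B - 1) i j ∈ idealClosure 𝔫 v)
    (i j : Fin 2) : (A * B - 1) i j ∈ idealClosure 𝔫 v := by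
  have e : A * B - 1 = (A - 1) * (B - 1) + (A - 1) + (B - 1) := by
    rw [sub_mul, mul_sub, mul_sub, Matrix.mul_one, Matrix.one_mul, Matrix.one_mul]
    abel
  rw [e, Matrix.add_apply, Matrix.add_apply, Matrix.mul_apply, Fin.sum_univ_two]
  have h1 : ∀ k : Fin 2, (A - 1) i k * (B - 1) k j ∈ idealClosure 𝔫 v := fun k =>
    ic_mul_int439 𝔫 v (ic_integral439 𝔫 v (hA i k)) (hB k j)
  exact ic_add439 𝔫 v (ic_add439 𝔫 v (ic_add439 𝔫 v (h1 0) (h1 1)) (hA i j)) (hB i j)

theorem inLevelGroup_mul439 {𝔫 : Ideal (𝓞 K)} {u u' : G K} (hu : InLevelGroup 𝔫 u)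
    (hu' : InLevelGroup 𝔫 u') : InLevelGroup 𝔫 (u * u') := by
  refine ⟨fun w => trivAtInf_mul439 (hu.1 w) (hu'.1 w), fun v i j => ⟨?_, ?_⟩⟩
  · have e : finComp v (u * u') = finComp v u * finComp v u' := by
      rw [← coe_finCompHom129, map_mul]; rfl
    rw [e]
    exact ic_mul_core439 𝔫 v (fun i j => (hu.2 v i j).1) (fun i j => (hu'.2 v i j).1) i j
  · have e : finComp v (u * u')⁻¹ = finComp v u'⁻¹ * finComp v u⁻¹ := by
      rw [← coe_finCompHom129, mul_inv_rev, map_mul]; rfl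
    rw [e]
    exact ic_mul_core439 𝔫 v (fun i j => (hu'.2 v i j).2) (fun i j => (hu.2 v i j).2) i j

theorem inLevelGroup_one439 (𝔫 : Ideal (𝓞 K)) : InLevelGroup 𝔫 (1 : G K) := by
  refine ⟨fun w => (trivAtInf_iff129 w 1).2 (map_one _), fun v i j => ?_⟩
  have e1 : finComp v (1 : G K) = 1 := (trivAtFin_iff129 v 1).2 (map_one _)
  have e2 : finComp v (1 : G K)⁻¹ = 1 := by rw [inv_one]; exact e1
  rw [e1, e2, sub_self]
  exact ⟨zero_mem_ic439 𝔫 v, zero_mem_ic439 𝔫 v⟩

/-- The level group is integral at every finite place. -/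
theorem isIntegralAt_of_level439 {𝔫 : Ideal (𝓞 K)} {u : G K} (hu : InLevelGroup 𝔫 u)
    (v : HeightOneSpectrum (𝓞 K)) : IsIntegralAt v u := by
  intro i j
  have e : finComp v u i j
      = (finComp v u - 1) i j + (1 : Matrix (Fin 2) (Fin 2) (v.adicCompletion K)) i j := by
    rw [Matrix.sub_apply, sub_add_cancel]
  rw [e]
  refine (v.adicCompletionIntegers K).add_mem _ _ ?_ (one_integral439 v i j)
  rw [HeightOneSpectrum.mem_adicCompletionIntegers]
  exact ic_integral439 𝔫 v (hu.2 v i j).1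

/-! ## Commutation -/

/-- An element which is trivial at infinity commutes with an element which is trivial at the
finite places. -/
theorem mul_comm_inf_fin439 {t k : G K} (ht : ∀ w : InfinitePlace K, TrivAtInf w t)
    (hk : ∀ v : HeightOneSpectrum (𝓞 K), TrivAtFin v k) (x : G K) : x * k * t = x * t * k := by
  have h : k * t = t * k := by
    apply G_ext129
    · intro w
      rw [map_mul, map_mul, (trivAtInf_iff129 w t).1 (ht w), one_mul, mul_one]
    · intro v
      rw [map_mul, map_mul, (trivAtFin_iff129 v k).1 (hk v), one_mul, mul_one]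
  rw [mul_assoc, h, ← mul_assoc]

/-- Two elements with disjoint supports commute. -/
theorem commute_of_disjoint439 {a g : G K} (P : HeightOneSpectrum (𝓞 K) → Prop)
    (hainf : ∀ w : InfinitePlace K, infCompHom129 w a = 1)
    (hafin : ∀ v : HeightOneSpectrum (𝓞 K), ¬ P v → finCompHom129 v a = 1)
    (hg : ∀ v : HeightOneSpectrum (𝓞 K), P v → finCompHom129 v g = 1) : a * g = g * a := by
  apply G_ext129
  · intro w
    rw [map_mul, map_mul, hainf w, one_mul, mul_one]
  · intro v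
    by_cases hv : P v
    · rw [map_mul, map_mul, hg v hv, one_mul, mul_one]
    · rw [map_mul, map_mul, hafin v hv, one_mul, mul_one]

/-! ## Conjugation of a Hecke coset system -/

theorem isHeckeCosetSystem_conj439 [DecidableEq (G K)] {v : HeightOneSpectrum (𝓞 K)}
    {H : Finset (G K)} (hH : IsHeckeCosetSystem v H) {t : G K} (ht : IsIntegralAt v t)
    (ht' : IsIntegralAt v t⁻¹) : IsHeckeCosetSystem v (H.image fun h => t⁻¹ * h * t) := by
  obtain ⟨hcard, hmem, hne⟩ := hH
  have hinj : Function.Injective fun h : G K => t⁻¹ * h * t := by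
    intro a b hab
    exact mul_left_cancel (mul_right_cancel hab)
  refine ⟨?_, ?_, ?_⟩
  · rw [Finset.card_image_of_injective _ hinj, hcard]
  · intro h hh
    obtain ⟨a, ha, rfl⟩ := Finset.mem_image.mp hh
    obtain ⟨hloc, hint, hdet⟩ := hmem a ha
    refine ⟨?_, isIntegralAt_mul439 (isIntegralAt_mul439 ht' hint) ht, ?_⟩
    · rw [isLocalAtFin_iff129] at hloc ⊢
      exact ⟨fun w => by rw [map_mul, map_mul, map_inv, hloc.1 w, mul_one, inv_mul_cancel],
        fun v' hv' => by rw [map_mul, map_mul, map_inv, hloc.2 v' hv', mul_one, inv_mul_cancel]⟩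
    · have e : finComp v (t⁻¹ * a * t)
          = ((finCompHom129 v t)⁻¹ : GL (Fin 2) (v.adicCompletion K)).1 * finComp v a
            * (finCompHom129 v t).1 := by
        rw [← coe_finCompHom129, map_mul, map_mul, map_inv]; rfl
      rw [e]
      have := Matrix.det_units_conj' (finCompHom129 v t) (finComp v a)
      rw [this]
      exact hdet
  · intro h hh h' hh' hhh
    obtain ⟨a, ha, rfl⟩ := Finset.mem_image.mp hh
    obtain ⟨b, hb, rfl⟩ := Finset.mem_image.mp hh'
    have hab : a ≠ b := fun e => hhh (by rw [e])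
    intro hint
    apply hne a ha b hb hab
    have e : a⁻¹ * b = t * ((t⁻¹ * a * t)⁻¹ * (t⁻¹ * b * t)) * t⁻¹ := by group
    rw [e]
    exact isIntegralAt_mul439 (isIntegralAt_mul439 ht hint) ht'

/-! ## B -/

theorem isPre_translate_good439 {𝔫₀ : Ideal (𝓞 K)} {r : G K} {c : EigData K} {ψ : G K → ℂ}
    (h : IsPre439 𝔫₀ r c ψ) (hr : T5.IsRayGen r) {t : G K} (ht : IsGoodTransl281 𝔫₀ t) :
    IsPre439 𝔫₀ r c (fun x => ψ (x * t)) where
  cont := h.cont.comp (continuous_id.mul continuous_const)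
  bdd := by
    obtain ⟨C, hC⟩ := h.bdd
    exact ⟨C, fun g => hC _⟩
  left_inv := fun γ g => by
    rw [mul_assoc]
    exact h.left_inv γ (g * t)
  arch_compact := fun w k hk g => by
    show ψ (g * k * t) = ψ (g * t)
    rw [mul_comm_inf_fin439 ht.1 hk.1.2]
    exact h.arch_compact w k hk (g * t)
  ray := fun g => by
    show ψ (g * r * t) = ψ (g * t)
    rw [mul_comm_inf_fin439 ht.1 hr.1]
    exact h.ray (g * t)
  cuspidal := T2.H886.isCuspidalFn_shift886 t h.cuspidal
  arch_scalar := fun w z hz g => by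
    show ψ (g * z * t) = ψ (g * t)
    rw [mul_comm_inf_fin439 ht.1 hz.1.2]
    exact h.arch_scalar w z hz (g * t)
  hecke := fun v hv => by
    classical
    refine ⟨fun H hH g => ?_, fun z hz g => ?_⟩
    · have hconj := isHeckeCosetSystem_conj439 hH (ht.2 v hv).1 (ht.2 v hv).2
      have e : ∀ x ∈ H, ψ (g * x * t) = ψ (g * t * (t⁻¹ * x * t)) := fun x _ => by
        congr 1
        group
      show ∑ x ∈ H, ψ (g * x * t) = _
      rw [Finset.sum_congr rfl e]
      have himg : ∑ x ∈ H, ψ (g * t * (t⁻¹ * x * t))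
          = ∑ y ∈ H.image (fun h => t⁻¹ * h * t), ψ (g * t * y) := by
        rw [Finset.sum_image (fun a _ b _ hab => mul_left_cancel (mul_right_cancel hab))]
      rw [himg]
      exact (h.hecke v hv).1 _ hconj (g * t)
    · show ψ (g * z * t) = _
      have e : g * z * t = g * t * z := by
        rw [mul_assoc, central_scalar439 hz t, ← mul_assoc]
      rw [e]
      exact (h.hecke v hv).2 z hz (g * t)
  mean := fun w => by
    intro d hd Y hY g
    have e : ∀ α β : ℝ, ψ (g * Y α β * t) = ψ (g * t * Y α β) := fun α β => by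
      rw [mul_comm_inf_fin439 ht.1 (hY α β).1.2]
    simp only [e]
    exact h.mean w d hd Y hY (g * t)

/-- **SUB-LEAF B = TRANSL-EIG**, verbatim. -/
theorem translEigC439 (K : Type) [Field K] [NumberField K] : TranslEigC281 K := by
  intro 𝔫₀ r l o hr T c hT ψ C hψ hR hI
  have e : translOp281 T c ψ = c • ∑ t ∈ T, fun x => ψ (x * t) := by
    funext x
    simp only [translOp281, Pi.smul_apply, Finset.sum_apply, smul_eq_mul]
  have hpre : IsPre439 𝔫₀ r C (translOp281 T c ψ) := by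
    rw [e]
    exact isPre_smul439 c (isPre_sum439 T _ fun t ht =>
      isPre_translate_good439 (isPre_of_eig439 hψ) hr (hT t ht))
  exact isEig_of_pre439 hpre hR hI

/-! ## I -/

/-- The sum over a system of `U g U / U` does not depend on the system. -/
theorem dblSum_indep439 {𝔫₀ : Ideal (𝓞 K)} {g : G K} {Hg Hg' : Finset (G K)}
    (hH : IsDblCosetSystem 𝔫₀ g Hg) (hH' : IsDblCosetSystem 𝔫₀ g Hg') {χ : G K → ℂ}
    (hχ : ∀ u : G K, InLevelGroup 𝔫₀ u → ∀ x : G K, χ (x * u) = χ x) (x : G K) :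
    ∑ a ∈ Hg, χ (x * a) = ∑ a ∈ Hg', χ (x * a) := by
  classical
  have key : ∀ {A B : Finset (G K)}, IsDblCosetSystem 𝔫₀ g A → IsDblCosetSystem 𝔫₀ g B →
      ∀ a ∈ A, ∃ b ∈ B, InLevelGroup 𝔫₀ (b⁻¹ * a) ∧
        ∀ b' ∈ B, InLevelGroup 𝔫₀ (b'⁻¹ * a) → b' = b := by
    intro A B hA hB a ha
    obtain ⟨u₁, u₂, hu₁, hu₂, rfl⟩ := hA.1 a ha
    obtain ⟨b, hb, hbu⟩ := hB.2.2 u₁ hu₁
    have h1 : InLevelGroup 𝔫₀ (b⁻¹ * (u₁ * g * u₂)) := by
      have e : b⁻¹ * (u₁ * g * u₂) = b⁻¹ * (u₁ * g) * u₂ := by group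
      rw [e]
      exact inLevelGroup_mul439 hbu hu₂
    refine ⟨b, hb, h1, fun b' hb' h2 => ?_⟩
    by_contra hne
    apply hB.2.1 b' hb' b hb hne
    have e : b'⁻¹ * b = (b'⁻¹ * (u₁ * g * u₂)) * (b⁻¹ * (u₁ * g * u₂))⁻¹ := by group
    rw [e]
    exact inLevelGroup_mul439 h2 (inLevelGroup_inv439 h1)
  choose! σ hσ using key hH hH'
  choose! τ hτ using key hH' hH
  have hinv : ∀ {a b : G K}, InLevelGroup 𝔫₀ (b⁻¹ * a) → InLevelGroup 𝔫₀ (a⁻¹ * b) := by
    intro a b h
    have e : a⁻¹ * b = (b⁻¹ * a)⁻¹ := by group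
    rw [e]
    exact inLevelGroup_inv439 h
  refine Finset.sum_nbij' σ τ (fun a ha => (hσ a ha).1) (fun a ha => (hτ a ha).1) ?_ ?_ ?_
  · intro a ha
    exact ((hτ (σ a) (hσ a ha).1).2.2 a ha (hinv (hσ a ha).2.1)).symm
  · intro a ha
    exact ((hσ (τ a) (hτ a ha).1).2.2 a ha (hinv (hτ a ha).2.1)).symm
  · intro a ha
    have := hχ _ (hσ a ha).2.1 (x * σ a)
    rw [← this]
    congr 1
    group

/-- **SUB-LEAF I = INDEP**, verbatim. -/
theorem indepC439 (K : Type) [Field K] [NumberField K] : IndepC281 K := by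
  intro 𝔫₀ l o hl
  refine ⟨fun H H' hH hH' ψ hI x => ?_, fun g Hg Hg' hHg hHg' χ hχ x => ?_⟩
  · exact congrFun (iwOp_indep340 hH hH' ψ
      (fun u hu huI g => isIwInv_local340 hI hl u hu huI g)) x
  · exact dblSum_indep439 hHg hHg' hχ x

/-! ## D -/

/-- The left translate of a system of `U g U / U` by an element of `U` is a system. -/
theorem isDblCosetSystem_translate439 [DecidableEq (G K)] {𝔫₀ : Ideal (𝓞 K)} {g : G K}
    {Hg : Finset (G K)} (hH : IsDblCosetSystem 𝔫₀ g Hg) {u : G K} (hu : InLevelGroup 𝔫₀ u) :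
    IsDblCosetSystem 𝔫₀ g (Hg.image fun a => u * a) := by
  refine ⟨?_, ?_, ?_⟩
  · intro h hh
    obtain ⟨a, ha, rfl⟩ := Finset.mem_image.mp hh
    obtain ⟨u₁, u₂, hu₁, hu₂, rfl⟩ := hH.1 a ha
    exact ⟨u * u₁, u₂, inLevelGroup_mul439 hu hu₁, hu₂, by group⟩
  · intro h hh h' hh' hne
    obtain ⟨a, ha, rfl⟩ := Finset.mem_image.mp hh
    obtain ⟨b, hb, rfl⟩ := Finset.mem_image.mp hh'
    have e : (u * a)⁻¹ * (u * b) = a⁻¹ * b := by group
    rw [e]
    exact hH.2.1 a ha b hb (fun e' => hne (by rw [e']))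
  · intro u' hu'
    obtain ⟨a, ha, hau⟩ := hH.2.2 (u⁻¹ * u') (inLevelGroup_mul439 (inLevelGroup_inv439 hu) hu')
    refine ⟨u * a, Finset.mem_image_of_mem _ ha, ?_⟩
    have e : (u * a)⁻¹ * (u' * g) = a⁻¹ * (u⁻¹ * u' * g) := by group
    rw [e]
    exact hau

/-- **SUB-LEAF D = DBL-INV**, verbatim. -/
theorem dblInvC439 (K : Type) [Field K] [NumberField K] : DblInvC281 K := by
  classical
  intro 𝔫₀ l o ho g hg1 hg2 Hg hHg
  refine ⟨fun a ha => ?_, fun χ hR hI => ⟨fun u hu x => ?_, fun h h1 h2 h3 x => ?_⟩⟩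
  · -- the elements of the system are good
    obtain ⟨u₁, u₂, hu₁, hu₂, rfl⟩ := hHg.1 a ha
    refine ⟨fun w => trivAtInf_mul439 (trivAtInf_mul439 (hu₁.1 w) (hg1 w)) (hu₂.1 w),
      fun v hv => ⟨?_, ?_⟩⟩
    · exact isIntegralAt_mul439 (isIntegralAt_mul439 (isIntegralAt_of_level439 hu₁ v)
        (isIntegralAt_of_trivAtFin439 (hg2 v (Or.inl hv)))) (isIntegralAt_of_level439 hu₂ v)
    · have e : (u₁ * g * u₂)⁻¹ = u₂⁻¹ * g⁻¹ * u₁⁻¹ := by group
      rw [e]
      exact isIntegralAt_mul439 (isIntegralAt_mul439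
        (isIntegralAt_of_level439 (inLevelGroup_inv439 hu₂) v)
        (isIntegralAt_of_trivAtFin439 (trivAtFin_inv439 (hg2 v (Or.inl hv)))))
        (isIntegralAt_of_level439 (inLevelGroup_inv439 hu₁) v)
  · -- right invariance under the level group
    show ∑ a ∈ Hg, χ (x * u * a) = ∑ a ∈ Hg, χ (x * a)
    have himg : ∑ a ∈ Hg, χ (x * u * a) = ∑ b ∈ Hg.image (fun a => u * a), χ (x * b) := by
      rw [Finset.sum_image (fun a _ b _ hab => mul_left_cancel hab)]
      exact Finset.sum_congr rfl fun a _ => by rw [mul_assoc]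
    rw [himg]
    exact dblSum_indep439 (isDblCosetSystem_translate439 hHg hu) hHg hR x
  · -- Iwahori invariance
    show ∑ a ∈ Hg, χ (x * h * a) = ∑ a ∈ Hg, χ (x * a)
    refine Finset.sum_congr rfl fun a ha => ?_
    obtain ⟨u₁, u₂, hu₁, hu₂, rfl⟩ := hHg.1 a ha
    -- `h' = u₁⁻¹ h u₁` is supported on the orbit, hence commutes with `g`
    have hh'inf : ∀ w : InfinitePlace K, infCompHom129 w (u₁⁻¹ * h * u₁) = 1 := fun w => by
      rw [map_mul, map_mul, map_inv, (trivAtInf_iff129 w h).1 (h1 w), mul_one, inv_mul_cancel]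
    have hh'fin : ∀ v : HeightOneSpectrum (𝓞 K), (∀ j < l, v ≠ o j) →
        finCompHom129 v (u₁⁻¹ * h * u₁) = 1 := fun v hv => by
      rw [map_mul, map_mul, map_inv, (trivAtFin_iff129 v h).1 (h2 v hv), mul_one,
        inv_mul_cancel]
    have hh'g : (u₁⁻¹ * h * u₁) * g = g * (u₁⁻¹ * h * u₁) :=
      commute_of_disjoint439 (fun v => ∃ j < l, v = o j) hh'inf
        (fun v hv => hh'fin v fun j hj e => hv ⟨j, hj, e⟩)
        (fun v hv => (trivAtFin_iff129 v g).1 (hg2 v (Or.inr hv)))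
    have hU : InLevelGroup 𝔫₀ (u₁ * u₂) := inLevelGroup_mul439 hu₁ hu₂
    have e : x * h * (u₁ * g * u₂) = x * (u₁ * g * u₂) * ((u₁ * u₂)⁻¹ * h * (u₁ * u₂)) := by
      have e1 : h * u₁ = u₁ * (u₁⁻¹ * h * u₁) := by group
      calc x * h * (u₁ * g * u₂) = x * (h * u₁) * g * u₂ := by group
        _ = x * (u₁ * (u₁⁻¹ * h * u₁)) * g * u₂ := by rw [e1]
        _ = x * u₁ * ((u₁⁻¹ * h * u₁) * g) * u₂ := by group
        _ = x * u₁ * (g * (u₁⁻¹ * h * u₁)) * u₂ := by rw [hh'g]
        _ = x * (u₁ * g * u₂) * ((u₁ * u₂)⁻¹ * h * (u₁ * u₂)) := by group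
    rw [e]
    refine hI _ (fun w => ?_) (fun v hv => ?_) (fun j hj => ?_) _
    · exact trivAtInf_mul439 (trivAtInf_mul439 (trivAtInf_inv439 (hU.1 w)) (h1 w)) (hU.1 w)
    · rw [trivAtFin_iff129, map_mul, map_mul, map_inv, (trivAtFin_iff129 v h).1 (h2 v hv),
        mul_one, inv_mul_cancel]
    · have hUI : T5.InIwahori (o j) (u₁ * u₂) := inIwahori_of_level439 (ho j hj) hU
      exact inIwahori_mul340 (inIwahori_mul340 (inIwahori_inv340 hUI) (h3 j hj)) hUI

/-! ## The leaf `OpUpC` -/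

/-- **LEAF T7.L2.1.F3 = OP-UP**, verbatim (the top of helper281 on the six sub-leaves). -/
theorem opUpC439 (K K' : Type) [Field K] [NumberField K] [Field K'] [NumberField K']
    [Algebra K K'] : OpUpC K K' :=
  opUpC_of281 (rconvOpsC439 K') (translEigC439 K') (iwInvC439 K') (dblInvC439 K')
    (shiftInvC439 K') (indepC439 K')

end Fermat.Agent.LT.T7.H439

end
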